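import Fermat.Statements.S54

/-!
# S54 (R ↠ T), reduced to the existence of Frobenius elements

`Fermat.Agent.S54.surjective_of_frobExists` proves the frozen statement S54 under the single
hypothesis that for every prime `ℓ` there are a valuation subring `A` of `AlgebraicClosure ℚ`
lying over `ℓ` and a Frobenius element `σ` at `A`.
-/

set_option autoImplicit false
open GaloisRep GaloisRep.DeformationRingData Polynomial

namespace Fermat.Agent.S54

/-- Frobenius elements exist at every prime. -/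
def FrobExists : Prop := ∀ (ℓ : ℕ), ℓ.Prime →
  ∃ (A : ValuationSubring (AlgebraicClosure ℚ)) (σ : AlgebraicClosure ℚ ≃ₐ[ℚ] AlgebraicClosure ℚ),
    A.LiesOverPrime ℓ ∧ A.IsFrobeniusAt σ ℓ

/-- Characteristic polynomials are compatible with base change and equivalence. -/
theorem charpoly_eq_map_of_equiv {R T : Type} [CommRing R] [IsLocalRing R] [CommRing T]
    [IsLocalRing T] (φ : R →+* T) (hφ : IsLocalHom φ) (ρ : GaloisRepAdic R) (ρ' : GaloisRepAdic T)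
    (e : GaloisRepAdic.Equiv (ρ.baseChangeAlong φ hφ) ρ')
    (σ : AlgebraicClosure ℚ ≃ₐ[ℚ] AlgebraicClosure ℚ) :
    LinearMap.charpoly (ρ'.ρ σ) = (LinearMap.charpoly (ρ.ρ σ)).map φ := by
  let _ : Algebra R T := φ.toAlgebra
  have h1 : ρ'.ρ σ = e.toLinearEquiv.conj ((ρ.baseChangeAlong φ hφ).ρ σ) := by
    ext x
    rw [LinearEquiv.conj_apply_apply, e.map_apply, LinearEquiv.apply_symm_apply]
  rw [h1, LinearEquiv.charpoly_conj]
  exact LinearMap.charpoly_baseChange (A := T) (ρ.ρ σ)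

theorem surjective_of_frobExists (hF : FrobExists) {𝒪 : Type} [CommRing 𝒪] [IsDomain 𝒪] [IsDiscreteValuationRing 𝒪] [IsAdicComplete (IsLocalRing.maximalIdeal 𝒪) 𝒪] {ρbar : ResidualGaloisRep (IsLocalRing.ResidueField 𝒪)} {𝒟 : ∀ ⦃A : Type⦄ [CommRing A] [IsLocalRing A] [Algebra 𝒪 A], GaloisRepAdic A → Prop} (D : GaloisRep.DeformationRingData 𝒪 ρbar 𝒟) {N : ℕ} [NeZero N] {S : Set ℕ} {θ : CuspForm.heckeAlgebra N 2 S →+* IsLocalRing.ResidueField 𝒪} {T : Type} [CommRing T] [IsLocalRing T] [IsNoetherianRing T] [IsAdicComplete (IsLocalRing.maximalIdeal T) T] [Algebra 𝒪 T] [IsLocalHom (algebraMap 𝒪 T)] [Module.Finite 𝒪 T] [Module.Free 𝒪 T] (H : CuspForm.HeckeGaloisRepDatum N S 𝒪 θ T) (hS : ∀ q : ℕ, q.Prime → q ∣ N → q ∈ S) (h𝒟 : 𝒟 H.ρ) (hres : H.ρ.residual.IsEquiv (ρbar.baseChangeAlong (IsLocalRing.ResidueField.map (algebraMap 𝒪 T)))) : ∃ φ : D.R →ₐ[𝒪] T, Function.Surjective φ ∧ ∃ hφ : IsLocalHom (φ : D.R →+*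 T), (D.ρ.baseChangeAlong (φ : D.R →+* T) hφ).IsEquiv H.ρ := by
  obtain ⟨φ, ⟨hφ, ⟨e⟩⟩, -⟩ := D.universal T H.residue_surjective H.ρ h𝒟 hres
  refine ⟨φ, ?_, hφ, ⟨e⟩⟩
  -- the range of `φ` contains every `π (T_ℓ)`
  have hT : ∀ (ℓ : ℕ) (hℓ : ℓ.Prime) (hℓN : ¬ ℓ ∣ N) (hℓS : ℓ ∉ S),
      H.π (CuspForm.heckeAlgebra.T hℓ hℓN hℓS) ∈ φ.range := by
    intro ℓ hℓ hℓN hℓS
    obtain ⟨A, σ, hA, hσ⟩ := hF ℓ hℓ
    have h1 := H.charpoly_frob ℓ hℓ hℓN hℓS A hA σ hσ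
    rw [charpoly_eq_map_of_equiv (φ : D.R →+* T) hφ D.ρ H.ρ e σ] at h1
    have h3 := congrArg (fun p => p.coeff 1) h1
    simp only [coeff_map, coeff_add, coeff_sub, coeff_X_pow, coeff_C_mul, coeff_X_one,
      coeff_C] at h3
    norm_num at h3
    refine ⟨-(LinearMap.charpoly (D.ρ.ρ σ)).coeff 1, ?_⟩
    rw [map_neg]
    exact (neg_eq_iff_eq_neg.mpr h3)
  -- hence the range of `π` is contained in the range of `φ`
  have hπ : Set.range H.π ⊆ (φ.range : Set T) := by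
    rintro _ ⟨⟨t, ht⟩, rfl⟩
    induction ht using Algebra.adjoin_induction with
    | mem x hx =>
      rcases hx with ⟨ℓ, hℓ, hℓN, hℓS, rfl⟩ | ⟨q, hqN, hq, hqS, rfl⟩
      · exact hT ℓ hℓ hℓN hℓS
      · exact absurd (hS q hq hqN) hqS
    | algebraMap r =>
      have : (⟨algebraMap ℤ _ r, Subalgebra.algebraMap_mem _ r⟩ : CuspForm.heckeAlgebra N 2 S) =
          algebraMap ℤ (CuspForm.heckeAlgebra N 2 S) r := rfl
      rw [this]
      simp only [eq_intCast, map_intCast]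
      exact intCast_mem _ r
    | add x y hx hy hx' hy' =>
      have : (⟨x + y, Subalgebra.add_mem _ hx hy⟩ : CuspForm.heckeAlgebra N 2 S) =
          ⟨x, hx⟩ + ⟨y, hy⟩ := rfl
      rw [this, map_add]
      exact add_mem hx' hy'
    | mul x y hx hy hx' hy' =>
      have : (⟨x * y, Subalgebra.mul_mem _ hx hy⟩ : CuspForm.heckeAlgebra N 2 S) =
          ⟨x, hx⟩ * ⟨y, hy⟩ := rfl
      rw [this, map_mul]
      exact mul_mem hx' hy'
  have htop : (⊤ : Subalgebra 𝒪 T) ≤ φ.range := by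
    rw [← H.adjoin_range_π]
    exact Algebra.adjoin_le hπ
  intro t
  exact htop (Algebra.mem_top : t ∈ (⊤ : Subalgebra 𝒪 T))

end Fermat.Agent.S54
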